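import Mathlib
import Fermat.Agent.S30.Spec
import Fermat.Agent.S22.Gamma0FG

/-!
# PROJECT J (S30): the bundled dictionary `Φ` (helper17)

From `h : Spec.PhiDict N ι` (the relation form of the dictionary, deliverable of J-1 + J-2 + J-3):

* `phiFun h x : Gamma0 N →* ℂˣ` for `x` in the torsion subgroup of `JZero N`, `phiFun_spec`,
  `phiFun_eq`;
* `phiHom h : AddCommGroup.torsion (JZero N) →+ Additive (Gamma0 N →* ℂˣ)`, `phiHom_injective`,
  `phiHom_mem`, `exists_phiHom_eq` (its range is the set of characters of finite order in `charGroup N`),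
  `nsmul_eq_zero_iff_phiFun` (`n • x = 0 ↔ (phiFun h x) ^ n = 1`);
* `finite_torsion h n` : the `n`-torsion of `JZero N` is finite (`n ≠ 0`), because `Γ₀(N)` is finitely
  generated; `finite_pow_torsion`.
-/

set_option autoImplicit false
set_option linter.unusedSectionVars false
set_option linter.style.haveILetI false

noncomputable section

namespace Fermat.Agent.S30.Final.PhiMap

open AlgebraicCurve ModularCurve CongruenceSubgroup
open scoped MatrixGroups
open Fermat.Agent.S30.Spec

local notation "Kb" => AlgebraicClosure ℚ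

/-! ### finiteness of the group of characters of exponent `n` of a finitely generated group -/

theorem finite_monoidHom_pow_eq_one {Γ : Type*} [Group Γ] [Group.FG Γ] {n : ℕ} (hn : n ≠ 0) :
    {ψ : Γ →* ℂˣ | ψ ^ n = 1}.Finite := by
  classical
  obtain ⟨s, hs⟩ := Group.fg_def.mp (inferInstance : Group.FG Γ)
  haveI : NeZero n := ⟨hn⟩
  -- evaluation on the generators, with values in the `n`-th roots of unity
  let ev : {ψ : Γ →* ℂˣ | ψ ^ n = 1} → (s → rootsOfUnity n ℂ) := fun ψ g =>
    ⟨ψ.1 g, by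
      rw [mem_rootsOfUnity]
      have := congrArg (fun χ : Γ →* ℂˣ => χ g) ψ.2
      simpa using this⟩
  have hev : Function.Injective ev := by
    intro ψ ψ' h
    apply Subtype.ext
    apply MonoidHom.eq_of_eqOn_dense hs
    intro g hg
    have := congrArg (fun f => ((f ⟨g, hg⟩ : rootsOfUnity n ℂ) : ℂˣ)) h
    exact this
  haveI : Finite {ψ : Γ →* ℂˣ | ψ ^ n = 1} := Finite.of_injective ev hev
  exact Set.toFinite _

variable {N : ℕ} [NeZero N] {ι : Kb →+* ℂ}

/-! ### the relation implies torsion -/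

theorem nsmul_eq_zero_of_isPhiOf {x : JZero N} {ψ : Gamma0 N →* ℂˣ} (hx : IsPhiOf N ι x ψ) :
    ∃ n : ℕ, n ≠ 0 ∧ n • x = 0 := by
  obtain ⟨n, D, f, k, a, b, hn, hf, rfl, hD, -, -⟩ := hx
  refine ⟨n, hn, ?_⟩
  have h1 : ((n • D : Divisor.degZero (K := Kb) (F := modularFunctionFieldBar N)) :
      Divisor Kb (modularFunctionFieldBar N)) ∈
      Divisor.principal (K := Kb) (F := modularFunctionFieldBar N) := by
    rw [Divisor.mem_principal]
    refine ⟨f, hf, fun v => ?_⟩
    rw [← hD v, AddSubgroup.coe_nsmul, Finsupp.smul_apply, nsmul_eq_mul]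
  have h2 : n • Pic0.mk D = Pic0.mk (n • D) := rfl
  rw [h2]
  exact (QuotientAddGroup.eq_zero_iff _).mpr (AddSubgroup.mem_addSubgroupOf.mpr h1)

/-! ### the bundled map -/

section Bundle

variable (h : PhiDict N ι)

include h

theorem exists_isPhiOf (x : AddCommGroup.torsion (JZero N)) :
    ∃ ψ, IsPhiOf N ι (x : JZero N) ψ := by
  obtain ⟨n, hn, hx⟩ := isOfFinAddOrder_iff_nsmul_eq_zero.mp x.2
  exact h.exists_of_torsion _ ⟨n, hn.ne', hx⟩

/-- the character attached to a torsion point -/
def phiFun (x : AddCommGroup.torsion (JZero N)) : Gamma0 N →* ℂˣ :=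
  Classical.choose (exists_isPhiOf h x)

theorem phiFun_spec (x : AddCommGroup.torsion (JZero N)) :
    IsPhiOf N ι (x : JZero N) (phiFun h x) :=
  Classical.choose_spec (exists_isPhiOf h x)

theorem phiFun_eq {x : AddCommGroup.torsion (JZero N)} {ψ : Gamma0 N →* ℂˣ}
    (hx : IsPhiOf N ι (x : JZero N) ψ) : phiFun h x = ψ :=
  h.unique _ _ _ (phiFun_spec h x) hx

theorem phiFun_add (x y : AddCommGroup.torsion (JZero N)) :
    phiFun h (x + y) = phiFun h x * phiFun h y :=
  phiFun_eq h (h.add _ _ _ _ (phiFun_spec h x) (phiFun_spec h y))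

theorem phiFun_zero : phiFun h 0 = 1 := by
  have h1 := phiFun_add h 0 0
  rw [add_zero] at h1
  ext g
  have h2 := congrArg (fun χ : Gamma0 N →* ℂˣ => χ g) h1
  simp only [MonoidHom.mul_apply] at h2
  have h3 : phiFun h 0 g = 1 := by
    have h4 : phiFun h 0 g * phiFun h 0 g = phiFun h 0 g * 1 := by rw [← h2, mul_one]
    exact mul_left_cancel h4
  rw [h3]; rfl

/-- **the dictionary `Φ`**, as an additive map on the torsion subgroup of `J₀(N)` -/
def phiHom : AddCommGroup.torsion (JZero N) →+ Additive (Gamma0 N →* ℂˣ) where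
  toFun x := Additive.ofMul (phiFun h x)
  map_zero' := by rw [phiFun_zero h]; rfl
  map_add' x y := by rw [phiFun_add h]; rfl

theorem phiHom_apply (x : AddCommGroup.torsion (JZero N)) :
    phiHom h x = Additive.ofMul (phiFun h x) := rfl

theorem phiHom_injective : Function.Injective (phiHom h) := by
  rw [injective_iff_map_eq_zero]
  intro x hx
  have h1 : phiFun h x = 1 := hx
  have h2 := phiFun_spec h x
  rw [h1] at h2
  exact Subtype.ext (h.injective _ h2)

theorem phiFun_mem (x : AddCommGroup.torsion (JZero N)) :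
    phiFun h x ∈ charGroup N ∧ IsOfFinOrder (phiFun h x) :=
  h.mem _ _ (phiFun_spec h x)

theorem exists_phiFun_eq {ψ : Gamma0 N →* ℂˣ} (hψ : ψ ∈ charGroup N) (hfin : IsOfFinOrder ψ) :
    ∃ x : AddCommGroup.torsion (JZero N), phiFun h x = ψ := by
  obtain ⟨x, hx⟩ := h.surj ψ hψ hfin
  obtain ⟨n, hn, hnx⟩ := nsmul_eq_zero_of_isPhiOf hx
  refine ⟨⟨x, isOfFinAddOrder_iff_nsmul_eq_zero.mpr ⟨n, Nat.pos_of_ne_zero hn, hnx⟩⟩, ?_⟩
  exact phiFun_eq h hx

theorem phiFun_nsmul (n : ℕ) (x : AddCommGroup.torsion (JZero N)) :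
    phiFun h (n • x) = phiFun h x ^ n := by
  have := map_nsmul (phiHom h) n x
  exact this

theorem nsmul_eq_zero_iff_phiFun (n : ℕ) (x : AddCommGroup.torsion (JZero N)) :
    n • (x : JZero N) = 0 ↔ phiFun h x ^ n = 1 := by
  rw [← phiFun_nsmul]
  constructor
  · intro hx
    have : n • x = 0 := Subtype.ext (by rw [AddSubgroup.coe_nsmul]; exact hx)
    rw [this, phiFun_zero]
  · intro hx
    have h1 : phiHom h (n • x) = 0 := hx
    have h2 := (injective_iff_map_eq_zero (phiHom h)).mp (phiHom_injective h) _ h1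
    have := congrArg (fun y : AddCommGroup.torsion (JZero N) => (y : JZero N)) h2
    simpa using this

/-- **finiteness of the `n`-torsion of `J₀(N)`** -/
theorem finite_torsion {n : ℕ} (hn : n ≠ 0) : {y : JZero N | n • y = 0}.Finite := by
  classical
  have hfin := finite_monoidHom_pow_eq_one (Γ := Gamma0 N) hn
  haveI : Finite {ψ : Gamma0 N →* ℂˣ | ψ ^ n = 1} := hfin
  let g : {y : JZero N | n • y = 0} → {ψ : Gamma0 N →* ℂˣ | ψ ^ n = 1} := fun y =>
    ⟨phiFun h ⟨y.1, isOfFinAddOrder_iff_nsmul_eq_zero.mpr ⟨n, Nat.pos_of_ne_zero hn, y.2⟩⟩,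
      (nsmul_eq_zero_iff_phiFun h n _).mp y.2⟩
  have hg : Function.Injective g := by
    intro y y' hyy'
    have h1 := congrArg Subtype.val hyy'
    have h2 := phiHom_injective h (congrArg Additive.ofMul h1)
    exact Subtype.ext (congrArg (fun z : AddCommGroup.torsion (JZero N) => (z : JZero N)) h2)
  haveI : Finite {y : JZero N | n • y = 0} := Finite.of_injective g hg
  exact Set.toFinite _

theorem finite_pow_torsion (p : ℕ) (hp : p ≠ 0) (n : ℕ) : {y : JZero N | p ^ n • y = 0}.Finite :=
  finite_torsion h (pow_ne_zero n hp)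

end Bundle

end Fermat.Agent.S30.Final.PhiMap
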