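import Fermat.Agent.S37.Glue
import Fermat.Agent.S37.GenusAll
import Fermat.Agent.S37.Cusps.EmbK
import Fermat.Agent.S30.Arith.Torsion

/-!
# PROJECT J (S30), input (H1): the output of project I in the shape consumed by J (helper17)

`hasReductionAll N p : Arith.Torsion.HasReductionAll N p`, i.e. the reduction data (R1)–(R4) of
`S37.ReductionJZero.HasReduction` at every prime `ℓ ∤ N p` and every valuation subring of `ℚ̄` over
`ℓ`, from `S37.Glue.hasReduction_of_reductionInputs`, `S37.GenusAll.reductionInputsModL` and the cusp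
count `S37.Cusps.EmbK.cuspCount`.
-/

set_option autoImplicit false

namespace Fermat.Agent.S30.Final.H1

/-- **(H1)**: the output of project I. -/
theorem hasReductionAll (N p : ℕ) [NeZero N] : Fermat.Agent.S30.Arith.Torsion.HasReductionAll N p := by
  intro ℓ hℓ hndvd A hA
  haveI : Fact ℓ.Prime := ⟨hℓ⟩
  have hℓN : ¬ ℓ ∣ N := fun h' => hndvd (h'.mul_right p)
  exact Fermat.Agent.S37.Glue.hasReduction_of_reductionInputs N p ℓ hℓ hndvd A hA
    (Fermat.Agent.S37.GenusAll.reductionInputsModL N A hA hℓN
      (fun _ => Fermat.Agent.S37.Cusps.EmbK.cuspCount N A hA hℓN))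

end Fermat.Agent.S30.Final.H1
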