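import Fermat.Agent.S30.Final.TateCompare
import Fermat.Agent.S30.Padic.TateChar
import Fermat.Agent.S30.Eigen.H4Final

/-!
# PROJECT J, slice J-6-D: the frozen statement S30 from the dictionary

`s30_of_dict` : the frozen statement S30 (for fixed `p N S 𝒪' χ`) from exactly three inputs:

* `(H1)` `Torsion.HasReductionAll N p` (project I);
* `h : Spec.PhiDict N ι` (the dictionary `Φ`: J-1, J-2, J-3);
* a twist `w` of the character group and the Hecke equivariance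
  `w (Φ (T_r x)) = tauChar N r (w (Φ x))` for the STANDARD operators `tauChar N r` (J-4-Phi and the
  Fricke twist).

Everything else is discharged: `(H2)` by `PhiMap.finite_torsion`, `(H3)` by `TateCompare.h3_of_phiDict`
with `tl := TateChar.tateLattice N p` and `TateChar.tateLattice_tauChar`, `(H4)` by
`Eigen/H4Final.h4` (`M = parabolicHoms ℤ (Gamma0 N) ℤ`, `τ r = tauPar ℤ ℤ N r r.2`).
`s30_of_dict'` is the variant without twist (`w = id`).
-/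

set_option autoImplicit false
set_option linter.unusedSectionVars false
set_option linter.style.haveILetI false

noncomputable section

namespace Fermat.Agent.S30.Final.S30OfDict

open Polynomial ModularCurve ModularCurve.Period CongruenceSubgroup
open Fermat.Agent.S30.Arith Fermat.Agent.S30.Spec
open Fermat.Agent.S30.Final.Chain Fermat.Agent.S30.Final.PhiMap Fermat.Agent.S30.Final.TateCompare
open Fermat.Agent.S30.Padic.TateChar Fermat.Agent.S30.Hecke.Parabolic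

local notation "Kb" => AlgebraicClosure ℚ

/-- **The frozen statement S30 from `(H1)`, the dictionary and its (twisted) Hecke equivariance.** -/
theorem s30_of_dict (p : ℕ) [Fact p.Prime] (N : ℕ) [NeZero N] (S : Finset ℕ)
    (hpS : p ∈ S) (hNS : ∀ q : ℕ, q.Prime → q ∣ N → q ∈ S)
    (𝒪' : Type) [CommRing 𝒪'] [IsDomain 𝒪'] [IsDiscreteValuationRing 𝒪']
    [IsAdicComplete (IsLocalRing.maximalIdeal 𝒪') 𝒪'] [Finite (IsLocalRing.ResidueField 𝒪')]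
    [CharZero 𝒪'] (hp𝒪' : (p : 𝒪') ∈ IsLocalRing.maximalIdeal 𝒪')
    (χ : CuspForm.heckeAlgebra N 2 (↑S : Set ℕ) →+* 𝒪')
    (H1 : Torsion.HasReductionAll N p)
    {ι : Kb →+* ℂ} (h : PhiDict N ι)
    (w : Additive ↥(charGroup N) ≃+ Additive ↥(charGroup N))
    (hHecke : ∀ (r : Nat.Primes) (x : AddCommGroup.torsion (JZero N)),
      w (phiC h (torsionMap (heckeEnd N r) x)) = tauChar N r r.2 (w (phiC h x))) :
    ∃ (𝒪'' : Type) (_ : CommRing 𝒪'') (_ : IsDomain 𝒪'') (_ : IsDiscreteValuationRing 𝒪'')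
      (_ : IsAdicComplete (IsLocalRing.maximalIdeal 𝒪'') 𝒪'')
      (_ : Finite (IsLocalRing.ResidueField 𝒪'')) (_ : CharZero 𝒪'')
      (_ : Algebra 𝒪' 𝒪'') (_ : Module.Finite 𝒪' 𝒪'') (_ : IsLocalHom (algebraMap 𝒪' 𝒪'')),
      Function.Injective (algebraMap 𝒪' 𝒪'') ∧
      ∃ ρ : GaloisRepAdic 𝒪'',
        (∀ (ℓ : ℕ) (hℓ : ℓ.Prime) (hℓN : ¬ ℓ ∣ N) (hℓS : ℓ ∉ (↑S : Set ℕ)),
          ∀ A : ValuationSubring (AlgebraicClosure ℚ), A.LiesOverPrime ℓ →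
            ∀ σ : AlgebraicClosure ℚ ≃ₐ[ℚ] AlgebraicClosure ℚ, A.IsFrobeniusAt σ ℓ →
              LinearMap.charpoly (ρ.ρ σ) =
                X ^ 2 - C (algebraMap 𝒪' 𝒪'' (χ (CuspForm.heckeAlgebra.T hℓ hℓN hℓS))) * X
                  + C ((ℓ : 𝒪''))) ∧
        (∀ q : ℕ, q.Prime → ¬ q ∣ N → q ≠ p → ρ.IsUnramifiedAt q) :=
  s30_of_phiDict p N S hpS hNS 𝒪' hp𝒪' χ H1 h w (fun r => tauChar N r r.2) hHecke
    (parabolicHoms ℤ (Gamma0 N) ℤ) (fun r => tauPar ℤ ℤ N r r.2) (tateLattice N p)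
    (fun r x => tateLattice_tauChar p N r r.2 x) (Fermat.Agent.S30.Eigen.H4Final.h4 N S 𝒪' χ)

/-- the variant without twist -/
theorem s30_of_dict' (p : ℕ) [Fact p.Prime] (N : ℕ) [NeZero N] (S : Finset ℕ)
    (hpS : p ∈ S) (hNS : ∀ q : ℕ, q.Prime → q ∣ N → q ∈ S)
    (𝒪' : Type) [CommRing 𝒪'] [IsDomain 𝒪'] [IsDiscreteValuationRing 𝒪']
    [IsAdicComplete (IsLocalRing.maximalIdeal 𝒪') 𝒪'] [Finite (IsLocalRing.ResidueField 𝒪')]
    [CharZero 𝒪'] (hp𝒪' : (p : 𝒪') ∈ IsLocalRing.maximalIdeal 𝒪')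
    (χ : CuspForm.heckeAlgebra N 2 (↑S : Set ℕ) →+* 𝒪')
    (H1 : Torsion.HasReductionAll N p)
    {ι : Kb →+* ℂ} (h : PhiDict N ι)
    (hHecke : ∀ (r : Nat.Primes) (x : AddCommGroup.torsion (JZero N)),
      phiC h (torsionMap (heckeEnd N r) x) = tauChar N r r.2 (phiC h x)) :
    ∃ (𝒪'' : Type) (_ : CommRing 𝒪'') (_ : IsDomain 𝒪'') (_ : IsDiscreteValuationRing 𝒪'')
      (_ : IsAdicComplete (IsLocalRing.maximalIdeal 𝒪'') 𝒪'')
      (_ : Finite (IsLocalRing.ResidueField 𝒪'')) (_ : CharZero 𝒪'')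
      (_ : Algebra 𝒪' 𝒪'') (_ : Module.Finite 𝒪' 𝒪'') (_ : IsLocalHom (algebraMap 𝒪' 𝒪'')),
      Function.Injective (algebraMap 𝒪' 𝒪'') ∧
      ∃ ρ : GaloisRepAdic 𝒪'',
        (∀ (ℓ : ℕ) (hℓ : ℓ.Prime) (hℓN : ¬ ℓ ∣ N) (hℓS : ℓ ∉ (↑S : Set ℕ)),
          ∀ A : ValuationSubring (AlgebraicClosure ℚ), A.LiesOverPrime ℓ →
            ∀ σ : AlgebraicClosure ℚ ≃ₐ[ℚ] AlgebraicClosure ℚ, A.IsFrobeniusAt σ ℓ →
              LinearMap.charpoly (ρ.ρ σ) =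
                X ^ 2 - C (algebraMap 𝒪' 𝒪'' (χ (CuspForm.heckeAlgebra.T hℓ hℓN hℓS))) * X
                  + C ((ℓ : 𝒪''))) ∧
        (∀ q : ℕ, q.Prime → ¬ q ∣ N → q ≠ p → ρ.IsUnramifiedAt q) :=
  s30_of_dict p N S hpS hNS 𝒪' hp𝒪' χ H1 h (AddEquiv.refl _) hHecke

end Fermat.Agent.S30.Final.S30OfDict
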