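import Fermat.Agent.S30.Padic.Assembly
import Fermat.Agent.S30.Padic.EigenCompare
import Fermat.Agent.S30.Algebra.DetGalois
import Fermat.Agent.S30.Algebra.CompleteDVRExt
import Fermat.Agent.S30.Arith.Torsion
import Fermat.Agent.S30.Arith.HeckeGalois
import Fermat.Agent.S30.Arith.Smooth
import Fermat.Agent.S30.Density.Bridge
import Fermat.Prelude.Def_CuspForm_HeckeGaloisRepDatum

/-!
# PROJECT J, slice J-6-C: the S30 chain, hypotheses-first

The conclusion of `s30_of_inputs` is the frozen statement S30 (for fixed `p N S 𝒪' χ`).  Its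
hypotheses are the inputs which are still being produced:

* `(H1)` `Torsion.HasReductionAll N p` (project I);
* `(H2)` finiteness of the `p`-torsion of `JZero N`;
* `(H3)` a Hecke-equivariant comparison `Tp p (JZero N) ≃ₗ[ℤ_[p]] ℤ_[p] ⊗[ℤ] M` with a `ℤ`-module `M`
  carrying operators `τ r`;
* `(H4)` the extension of `χ` to all `τ r` over a finite extension `L` of `Frac 𝒪'`, with integral
  values `c r` and a two-dimensional eigenspace in `L ⊗[ℤ] M`.

Everything else is consumed from `Padic/*` (Tate module, eigen-lattice), `Algebra/*` (the ring `𝒪''`,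
the determinant lemma), `Arith/*` (Galois/Hecke commutation, open stabilisers, Eichler–Shimura on
torsion) and `Density/Bridge` (Frobenius density).
-/

set_option autoImplicit false
set_option linter.unusedSectionVars false
set_option linter.style.haveILetI false

noncomputable section

namespace Fermat.Agent.S30.Final.Chain

open IsLocalRing TensorProduct Polynomial ModularCurve
open Fermat.Agent.S30.Padic.TateModule Fermat.Agent.S30.Padic.EigenLattice
open Fermat.Agent.S30.Padic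

local notation "GQ" => (AlgebraicClosure ℚ ≃ₐ[ℚ] AlgebraicClosure ℚ)

/-! ### Finiteness of `p ^ n`-torsion -/

theorem finite_torsion_pow {J : Type*} [AddCommGroup J] (p : ℕ)
    (h : {y : J | p • y = 0}.Finite) (n : ℕ) : {y : J | p ^ n • y = 0}.Finite := by
  induction n with
  | zero =>
    refine (Set.finite_singleton (0 : J)).subset fun y hy => ?_
    simpa using hy
  | succ n ih =>
    refine Set.Finite.of_finite_fibers (fun y : J => p • y) (ih.subset ?_) ?_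
    · rintro _ ⟨y, hy, rfl⟩
      change p ^ n • p • y = 0
      rw [smul_smul, ← pow_succ]
      exact hy
    · rintro z ⟨y₀, -, rfl⟩
      have : ({y : J | p ^ (n + 1) • y = 0} ∩ (fun y : J => p • y) ⁻¹' {p • y₀}) ⊆
          (fun w => y₀ + w) '' {y : J | p • y = 0} := by
        rintro y ⟨-, hy⟩
        refine ⟨y - y₀, ?_, add_sub_cancel y₀ y⟩
        change p • (y - y₀) = 0
        rw [smul_sub, sub_eq_zero]
        exact hy
      exact (h.image _).subset this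

/-! ### The comparison isomorphism after base change -/

section Compare

variable (p : ℕ) [Fact p.Prime] (R : Type*) [CommRing R] [Algebra ℤ_[p] R]
variable {T : Type*} [AddCommGroup T] [Module ℤ_[p] T] {M : Type*} [AddCommGroup M]

/-- The base change to `R` of a comparison isomorphism `T ≃ ℤ_[p] ⊗[ℤ] M`. -/
def compareEquiv (e : T ≃ₗ[ℤ_[p]] ℤ_[p] ⊗[ℤ] M) : R ⊗[ℤ_[p]] T ≃ₗ[R] R ⊗[ℤ] M :=
  (LinearEquiv.baseChange ℤ_[p] R T (ℤ_[p] ⊗[ℤ] M) e) ≪≫ₗ
    AlgebraTensorModule.cancelBaseChange ℤ ℤ_[p] R R M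

theorem compareEquiv_tmul (e : T ≃ₗ[ℤ_[p]] ℤ_[p] ⊗[ℤ] M) (b : R) (x : T) :
    compareEquiv p R e (b ⊗ₜ x) =
      AlgebraTensorModule.cancelBaseChange ℤ ℤ_[p] R R M (b ⊗ₜ e x) := rfl

theorem cancel_baseChange (τ : Module.End ℤ M) (b : R) (y : ℤ_[p] ⊗[ℤ] M) :
    AlgebraTensorModule.cancelBaseChange ℤ ℤ_[p] R R M (b ⊗ₜ τ.baseChange ℤ_[p] y) =
      τ.baseChange R (AlgebraTensorModule.cancelBaseChange ℤ ℤ_[p] R R M (b ⊗ₜ y)) := by
  induction y using TensorProduct.induction_on with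
  | zero => simp
  | tmul a m => simp
  | add y z hy hz => rw [map_add, TensorProduct.tmul_add, map_add, hy, hz,
      TensorProduct.tmul_add, map_add, map_add]

theorem compareEquiv_intertwines (e : T ≃ₗ[ℤ_[p]] ℤ_[p] ⊗[ℤ] M) (f : Module.End ℤ_[p] T)
    (τ : Module.End ℤ M) (he : ∀ x, e (f x) = τ.baseChange ℤ_[p] (e x)) (v : R ⊗[ℤ_[p]] T) :
    compareEquiv p R e (f.baseChange R v) = τ.baseChange R (compareEquiv p R e v) := by
  induction v using TensorProduct.induction_on with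
  | zero => simp
  | tmul b x =>
    rw [LinearMap.baseChange_tmul, compareEquiv_tmul, compareEquiv_tmul, he, cancel_baseChange]
  | add v w hv hw => rw [map_add, map_add, hv, hw, map_add, map_add]

end Compare

/-! ### The chain -/

section Main

open Fermat.Agent.S30.Arith Fermat.Agent.S30.Algebra

/-- The Hecke operator `T_r` on `JZero N` as an additive endomorphism. -/
def heckeEnd (N : ℕ) [NeZero N] (r : Nat.Primes) : AddMonoid.End (JZero N) :=
  (heckeOperatorBar N r).toAddMonoidHom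

theorem heckeEnd_apply (N : ℕ) [NeZero N] (r : Nat.Primes) (x : JZero N) :
    heckeEnd N r x = heckeOperatorBar N r x := rfl

/-- **The S30 chain.**  The frozen statement S30 from the four open inputs `(H1)`–`(H4)`. -/
theorem s30_of_inputs (p : ℕ) [Fact p.Prime] (N : ℕ) [NeZero N] (S : Finset ℕ)
    (hpS : p ∈ S) (hNS : ∀ q : ℕ, q.Prime → q ∣ N → q ∈ S)
    (𝒪' : Type) [CommRing 𝒪'] [IsDomain 𝒪'] [IsDiscreteValuationRing 𝒪']
    [IsAdicComplete (IsLocalRing.maximalIdeal 𝒪') 𝒪'] [Finite (IsLocalRing.ResidueField 𝒪')]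
    [CharZero 𝒪'] (hp𝒪' : (p : 𝒪') ∈ IsLocalRing.maximalIdeal 𝒪')
    (χ : CuspForm.heckeAlgebra N 2 (↑S : Set ℕ) →+* 𝒪')
    (H1 : Torsion.HasReductionAll N p)
    (H2 : {y : JZero N | p • y = 0}.Finite)
    (M : Type) [AddCommGroup M] (τ : Nat.Primes → Module.End ℤ M)
    (e : Tp p (JZero N) ≃ₗ[ℤ_[p]] ℤ_[p] ⊗[ℤ] M)
    (H3 : ∀ (r : Nat.Primes) (x : Tp p (JZero N)),
      e (Tp.mapEnd (heckeEnd N r) x) = (τ r).baseChange ℤ_[p] (e x))
    (H4 : ∃ (L : Type) (_ : Field L) (_ : Algebra (FractionRing 𝒪') L) (_ : Algebra 𝒪' L)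
      (_ : IsScalarTower 𝒪' (FractionRing 𝒪') L) (_ : FiniteDimensional (FractionRing 𝒪') L)
      (c : Nat.Primes → L), (∀ r, IsIntegral 𝒪' (c r)) ∧
      (∀ (ℓ : ℕ) (hℓ : ℓ.Prime) (hℓN : ¬ ℓ ∣ N) (hℓS : ℓ ∉ (↑S : Set ℕ)),
        c ⟨ℓ, hℓ⟩ = algebraMap 𝒪' L (χ (CuspForm.heckeAlgebra.T hℓ hℓN hℓS))) ∧
      Module.finrank L (eigenLattice (fun r => (τ r).baseChange L) c) = 2) :
    ∃ (𝒪'' : Type) (_ : CommRing 𝒪'') (_ : IsDomain 𝒪'') (_ : IsDiscreteValuationRing 𝒪'')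
      (_ : IsAdicComplete (IsLocalRing.maximalIdeal 𝒪'') 𝒪'')
      (_ : Finite (IsLocalRing.ResidueField 𝒪'')) (_ : CharZero 𝒪'')
      (_ : Algebra 𝒪' 𝒪'') (_ : Module.Finite 𝒪' 𝒪'') (_ : IsLocalHom (algebraMap 𝒪' 𝒪'')),
      Function.Injective (algebraMap 𝒪' 𝒪'') ∧
      ∃ ρ : GaloisRepAdic 𝒪'',
        (∀ (ℓ : ℕ) (hℓ : ℓ.Prime) (hℓN : ¬ ℓ ∣ N) (hℓS : ℓ ∉ (↑S : Set ℕ)),
          ∀ A : ValuationSubring (AlgebraicClosure ℚ), A.LiesOverPrime ℓ →
            ∀ σ : AlgebraicClosure ℚ ≃ₐ[ℚ] AlgebraicClosure ℚ, A.IsFrobeniusAt σ ℓ →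
              LinearMap.charpoly (ρ.ρ σ) =
                X ^ 2 - C (algebraMap 𝒪' 𝒪'' (χ (CuspForm.heckeAlgebra.T hℓ hℓN hℓS))) * X
                  + C ((ℓ : 𝒪''))) ∧
        (∀ q : ℕ, q.Prime → ¬ q ∣ N → q ≠ p → ρ.IsUnramifiedAt q) := by
  classical
  have hp : p.Prime := Fact.out
  obtain ⟨L, _, _, _, _, _, c, hcint, hcχ, hdim⟩ := H4
  obtain ⟨𝒪'', _, _, _, _, _, _, _, _, _, _, _, _, hinj, hlift⟩ :=
    CompleteDVRExt.exists_completeDVR_ext 𝒪' (FractionRing 𝒪') L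
  refine ⟨𝒪'', inferInstance, inferInstance, inferInstance, inferInstance, inferInstance,
    inferInstance, inferInstance, inferInstance, inferInstance, hinj, ?_⟩
  -- integral eigenvalues
  choose c'' hc'' using fun r => hlift (c r) (hcint r)
  have hinjL : Function.Injective (algebraMap 𝒪'' L) := IsFractionRing.injective 𝒪'' L
  -- `p` is in the maximal ideal of `𝒪''`
  have hp'' : (p : 𝒪'') ∈ maximalIdeal 𝒪'' := by
    rw [mem_maximalIdeal, mem_nonunits_iff] at hp𝒪' ⊢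
    intro hu
    apply hp𝒪'
    have : IsUnit (algebraMap 𝒪' 𝒪'' (p : 𝒪')) := by rwa [map_natCast]
    exact (isUnit_map_iff (algebraMap 𝒪' 𝒪'') _).1 this
  letI : Algebra ℤ_[p] 𝒪'' := ZpAlgebra.zpAlgebra p (maximalIdeal 𝒪'') hp''
  -- the Tate module
  haveI : Module.Finite ℤ_[p] (Tp p (JZero N)) := Tp.finite_of_finite H2
  haveI : Module.Free ℤ_[p] (Tp p (JZero N)) := Tp.free_of_finite H2
  -- the rank of the eigen-lattice
  have h2 : Module.finrank 𝒪'' (eigenLattice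
      (fun r => Assembly.opVHom p 𝒪'' (JZero N) (heckeEnd N r)) c'') = 2 := by
    refine (EigenCompare.finrank_eigenLattice_of_equiv (L := L)
      (fun r => Assembly.opVHom p 𝒪'' (JZero N) (heckeEnd N r)) c'' τ (compareEquiv p 𝒪'' e)
      (fun r v => compareEquiv_intertwines p 𝒪'' e _ (τ r) (H3 r) v)).trans ?_
    have : (fun r => algebraMap 𝒪'' L (c'' r)) = c := funext hc''
    rw [this]
    exact hdim
  -- open stabilisers
  have hC : ∀ n : ℕ, ∃ E : IntermediateField ℚ (AlgebraicClosure ℚ), FiniteDimensional ℚ E ∧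
      ∀ σ : GQ, (∀ x ∈ E, σ x = x) → ∀ y : JZero N, p ^ n • y = 0 → σ • y = y := fun n =>
    Smooth.exists_finite_fixing_torsion N (p ^ n) (finite_torsion_pow p H2 n)
  obtain ⟨ρ, hρq, hρ1⟩ := Assembly.exists_galoisRep p (R := 𝒪'') (J := JZero N) hp'' H2 hC
    (heckeEnd N) (fun σ r y => HeckeGalois.heckeOperatorBar_smul N r σ y) c'' h2
  -- the Frobenius relation and unramifiedness
  let a : ℕ → 𝒪'' := fun ℓ => if h : ℓ.Prime then c'' ⟨ℓ, h⟩ else 0
  have hNS' : ∀ ℓ : ℕ, ℓ.Prime → ℓ ∉ S → ¬ ℓ ∣ N := fun ℓ hℓ hℓS hdvd => hℓS (hNS ℓ hℓ hdvd)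
  have hrel : DetGalois.FrobRelation ρ S a := by
    intro ℓ hℓ hℓS A hA σ hσ
    have hℓp : ℓ ≠ p := fun h => hℓS (h ▸ hpS)
    have h := hρq σ ⟨ℓ, hℓ⟩ (ℓ : ℤ) (fun y hy => by
      rw [natCast_zsmul]
      exact Torsion.frobenius_relation H1 hp hℓ (hNS' ℓ hℓ hℓS) hℓp A hA hσ hy)
    simp only [a, dif_pos hℓ]
    rw [Int.cast_natCast] at h
    exact h
  have hunr : ∀ q : ℕ, q.Prime → (¬ q ∣ N ∧ q ≠ p) → ρ.IsUnramifiedAt q := by
    intro q hq hqq P hP σ hσ
    exact hρ1 σ fun y hy => Torsion.inertia_trivial H1 hp hq hqq.1 hqq.2 P hP hσ hy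
  have hdens : DetGalois.Density S := fun E hE σ =>
    haveI := hE
    Density.Bridge.frobenius_density_final E σ S
  obtain ⟨ρ', hρ'c, hρ'u⟩ := DetGalois.exists_rep_charpoly p hp'' S hpS
    (fun q => ¬ q ∣ N ∧ q ≠ p) (fun q hq => hq.2) a ρ hrel hunr hdens
  refine ⟨ρ', ?_, fun q hq hqN hqp => hρ'u q hq ⟨hqN, hqp⟩⟩
  intro ℓ hℓ hℓN hℓS A hA σ hσ
  have hℓS' : ℓ ∉ S := fun h => hℓS (Finset.mem_coe.2 h)
  rw [hρ'c ℓ hℓ hℓS' A hA σ hσ]
  have ha : a ℓ = algebraMap 𝒪' 𝒪'' (χ (CuspForm.heckeAlgebra.T hℓ hℓN hℓS)) := by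
    apply hinjL
    simp only [a, dif_pos hℓ]
    exact (hc'' ⟨ℓ, hℓ⟩).trans ((hcχ ℓ hℓ hℓN hℓS).trans
      (IsScalarTower.algebraMap_apply 𝒪' 𝒪'' L _))
  rw [ha]

end Main

end Fermat.Agent.S30.Final.Chain

end
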