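import Mathlib
import Fermat.Agent.S30.Final.PhiMap

/-!
# PROJECT J (S30): the twisted dictionary `Φ' = c_W⁻¹ ∘ Φ` (helper26, slice J-6-F)

The dictionary `Φ` of `Final/PhiMap.lean` intertwines the Hecke operator `heckeOperatorBar N r` on
`J₀(N)` with the operator `tStar r` of the double coset `Γ diag(r,1) Γ` on the characters, which for
`r ∣ N` is *not* the standard operator `tStd r` (`U_r`) but its conjugate by the Fricke automorphism
`c_W` (blueprint ruling "Option F").  Everything here is abstract in `c_W`, `tStar`, `tStd`: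

* `heckeTors r` : `heckeOperatorBar N r` restricted to the torsion subgroup of `J₀(N)`;
* `phiTw h cW hcW x := c_W⁻¹ (phiFun h x)`, as an additive map
  `phiTw : torsion (JZero N) →+ Additive ↥(charGroup N)`;
* `phiTw_injective`, `exists_phiTw_eq` (onto the characters of finite order of `charGroup N`),
  `nsmul_eq_zero_iff_phiTw` (order preserving), `phiTw_bijOn_torsion` (the two inputs of
  `TateModule.Tp.map_bijective`);
* **`phiTw_hecke`** : `phiTw (heckeTors r x) = tC r (phiTw x)` for every additive operator `tC r` on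
  `Additive ↥(charGroup N)` whose underlying character map is `tStd r` (for the standard operators:
  helper21's `TateChar.tauChar N r hr` with `TateChar.coe_tauChar`), from
  `hHecke : IsPhiOf x ψ → IsPhiOf (heckeOperatorBar N r x) (tStar r ψ)` (helper16, J-4-Phi) and
  `hFricke : tStar r ψ = c_W (tStd r (c_W⁻¹ ψ))` (helper19, Hecke/Fricke).
-/

set_option autoImplicit false
set_option linter.unusedSectionVars false
set_option linter.style.haveILetI false

noncomputable section

namespace Fermat.Agent.S30.Final.FrickeTwist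

open AlgebraicCurve ModularCurve CongruenceSubgroup
open scoped MatrixGroups
open Fermat.Agent.S30.Spec Fermat.Agent.S30.Final.PhiMap

local notation "Kb" => AlgebraicClosure ℚ

variable {N : ℕ} [NeZero N]

/-! ### the Hecke operators on the torsion subgroup -/

/-- `heckeOperatorBar N r` restricted to the torsion subgroup of `J₀(N)` -/
def heckeTors (r : Nat.Primes) :
    AddCommGroup.torsion (JZero N) →+ AddCommGroup.torsion (JZero N) where
  toFun x := ⟨heckeOperatorBar N r (x : JZero N),
    (heckeOperatorBar N r).toAddMonoidHom.isOfFinAddOrder x.2⟩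
  map_zero' := Subtype.ext (by simp)
  map_add' x y := Subtype.ext (by simp)

@[simp] theorem coe_heckeTors (r : Nat.Primes) (x : AddCommGroup.torsion (JZero N)) :
    ((heckeTors r x : AddCommGroup.torsion (JZero N)) : JZero N) =
      heckeOperatorBar N r (x : JZero N) := rfl

/-! ### the twisted dictionary -/

section Twist

variable {ι : Kb →+* ℂ} (h : PhiDict N ι)
  (cW : (Gamma0 N →* ℂˣ) ≃* (Gamma0 N →* ℂˣ))
  (hcW : ∀ ψ : Gamma0 N →* ℂˣ, cW ψ ∈ charGroup N ↔ ψ ∈ charGroup N)

/-- a multiplicative equivalence of the character group commutes with powers -/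
theorem equiv_pow (e : (Gamma0 N →* ℂˣ) ≃* (Gamma0 N →* ℂˣ)) (ψ : Gamma0 N →* ℂˣ) (n : ℕ) :
    e (ψ ^ n) = e ψ ^ n :=
  map_pow e ψ n

include hcW in
theorem symm_mem_charGroup {ψ : Gamma0 N →* ℂˣ} (hψ : ψ ∈ charGroup N) :
    cW.symm ψ ∈ charGroup N := by
  rw [← hcW, MulEquiv.apply_symm_apply]
  exact hψ

/-- **the twisted dictionary** `Φ' = c_W⁻¹ ∘ Φ`, with values in the character group `X` -/
def phiTw : AddCommGroup.torsion (JZero N) →+ Additive ↥(charGroup N) where
  toFun x := Additive.ofMul
    ⟨cW.symm (phiFun h x), symm_mem_charGroup cW hcW (phiFun_mem h x).1⟩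
  map_zero' := by
    apply (Additive.toMul (α := ↥(charGroup N))).injective
    apply Subtype.ext
    show cW.symm (phiFun h 0) = 1
    rw [phiFun_zero h, map_one]
  map_add' x y := by
    apply (Additive.toMul (α := ↥(charGroup N))).injective
    apply Subtype.ext
    show cW.symm (phiFun h (x + y)) = cW.symm (phiFun h x) * cW.symm (phiFun h y)
    rw [phiFun_add h, map_mul]

theorem coe_phiTw (x : AddCommGroup.torsion (JZero N)) :
    ((Additive.toMul (phiTw h cW hcW x) : ↥(charGroup N)) : Gamma0 N →* ℂˣ) =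
      cW.symm (phiFun h x) := rfl

theorem phiTw_injective : Function.Injective (phiTw h cW hcW) := by
  intro x y hxy
  have h1 := congrArg (fun z : Additive ↥(charGroup N) =>
    ((Additive.toMul z : ↥(charGroup N)) : Gamma0 N →* ℂˣ)) hxy
  simp only [coe_phiTw] at h1
  have h2 : phiFun h x = phiFun h y := cW.symm.injective h1
  exact phiHom_injective h (congrArg Additive.ofMul h2)

/-- `Φ'` is onto the characters of finite order of `X` -/
theorem exists_phiTw_eq (ψ : ↥(charGroup N)) (hfin : IsOfFinOrder ψ) :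
    ∃ x : AddCommGroup.torsion (JZero N), phiTw h cW hcW x = Additive.ofMul ψ := by
  have h1 : cW (ψ : Gamma0 N →* ℂˣ) ∈ charGroup N := (hcW _).mpr ψ.2
  have h2 : IsOfFinOrder (cW (ψ : Gamma0 N →* ℂˣ)) := by
    have h3 : IsOfFinOrder (ψ : Gamma0 N →* ℂˣ) :=
      (charGroup N).subtype.isOfFinOrder hfin
    rw [isOfFinOrder_iff_pow_eq_one] at h3 ⊢
    obtain ⟨n, hn, h4⟩ := h3
    exact ⟨n, hn, by rw [← equiv_pow, h4]; exact map_one cW⟩
  obtain ⟨x, hx⟩ := exists_phiFun_eq h h1 h2
  refine ⟨x, ?_⟩
  apply (Additive.toMul (α := ↥(charGroup N))).injective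
  apply Subtype.ext
  show cW.symm (phiFun h x) = ψ
  rw [hx, MulEquiv.symm_apply_apply]

/-- `Φ'` preserves the orders -/
theorem nsmul_eq_zero_iff_phiTw (n : ℕ) (x : AddCommGroup.torsion (JZero N)) :
    n • (x : JZero N) = 0 ↔ n • phiTw h cW hcW x = 0 := by
  rw [nsmul_eq_zero_iff_phiFun h n x]
  constructor
  · intro hx
    apply (Additive.toMul (α := ↥(charGroup N))).injective
    apply Subtype.ext
    show cW.symm (phiFun h x) ^ n = 1
    rw [← equiv_pow, hx]
    exact map_one cW.symm
  · intro hx
    have h1 := congrArg (fun z : Additive ↥(charGroup N) =>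
      ((Additive.toMul z : ↥(charGroup N)) : Gamma0 N →* ℂˣ)) hx
    have h2 : cW.symm (phiFun h x) ^ n = 1 := h1
    rw [← equiv_pow] at h2
    have h3 := congrArg cW h2
    rw [MulEquiv.apply_symm_apply] at h3
    rw [h3]
    exact map_one cW

/-- the kernel hypothesis of `TateModule.Tp.map_bijective` (for every `p`) -/
theorem eq_zero_of_phiTw_eq_zero (x : AddCommGroup.torsion (JZero N))
    (hx : phiTw h cW hcW x = 0) : x = 0 :=
  phiTw_injective h cW hcW (by rw [hx, map_zero])

/-- the surjectivity hypothesis of `TateModule.Tp.map_bijective`: every element of `X` killed by `m`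
is the image of an element of `torsion (J₀(N))` killed by `m` -/
theorem exists_phiTw_eq_of_nsmul_eq_zero {m : ℕ} (hm : m ≠ 0) (z : Additive ↥(charGroup N))
    (hz : m • z = 0) :
    ∃ y : AddCommGroup.torsion (JZero N), m • y = 0 ∧ phiTw h cW hcW y = z := by
  have hfin : IsOfFinOrder (Additive.toMul z : ↥(charGroup N)) := by
    rw [isOfFinOrder_iff_pow_eq_one]
    exact ⟨m, Nat.pos_of_ne_zero hm, congrArg Additive.toMul hz⟩
  obtain ⟨y, hy⟩ := exists_phiTw_eq h cW hcW (Additive.toMul z) hfin
  refine ⟨y, ?_, hy⟩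
  apply Subtype.ext
  rw [AddSubgroup.coe_nsmul, AddSubgroup.coe_zero, nsmul_eq_zero_iff_phiTw h cW hcW, hy]
  exact hz

/-! ### Hecke equivariance for the standard operators -/

variable (tStar tStd : Nat.Primes → (Gamma0 N →* ℂˣ) → (Gamma0 N →* ℂˣ))
  (hFricke : ∀ (r : Nat.Primes) (ψ : Gamma0 N →* ℂˣ), tStar r ψ = cW (tStd r (cW.symm ψ)))
  (hHecke : ∀ (r : Nat.Primes) (x : JZero N) (ψ : Gamma0 N →* ℂˣ), IsPhiOf N ι x ψ →
    IsPhiOf N ι (heckeOperatorBar N r x) (tStar r ψ))

include hHecke in
/-- the untwisted dictionary intertwines `heckeOperatorBar N r` with `tStar r` -/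
theorem phiFun_heckeTors (r : Nat.Primes) (x : AddCommGroup.torsion (JZero N)) :
    phiFun h (heckeTors r x) = tStar r (phiFun h x) :=
  phiFun_eq h (hHecke r _ _ (phiFun_spec h x))

include hFricke hHecke in
/-- **the twisted dictionary intertwines `heckeOperatorBar N r` with the standard `tStd r`**, on the
level of characters -/
theorem coe_phiTw_heckeTors (r : Nat.Primes) (x : AddCommGroup.torsion (JZero N)) :
    ((Additive.toMul (phiTw h cW hcW (heckeTors r x)) : ↥(charGroup N)) : Gamma0 N →* ℂˣ) =
      tStd r ((Additive.toMul (phiTw h cW hcW x) : ↥(charGroup N)) : Gamma0 N →* ℂˣ) := by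
  rw [coe_phiTw, coe_phiTw, phiFun_heckeTors h tStar hHecke, hFricke,
    MulEquiv.symm_apply_apply]

include hFricke hHecke in
/-- **Hecke equivariance of `Φ'`**: for every additive operator `tC r` on `Additive ↥(charGroup N)`
whose underlying character map is `tStd r` (e.g. `TateChar.tauChar N r r.2`, by
`TateChar.coe_tauChar`, for `tStd r := TateChar.tauMul N r r.2`). -/
theorem phiTw_hecke (tC : Nat.Primes → Additive ↥(charGroup N) →+ Additive ↥(charGroup N))
    (htC : ∀ (r : Nat.Primes) (ψ : ↥(charGroup N)),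
      ((Additive.toMul (tC r (Additive.ofMul ψ)) : ↥(charGroup N)) : Gamma0 N →* ℂˣ) =
        tStd r (ψ : Gamma0 N →* ℂˣ))
    (r : Nat.Primes) (x : AddCommGroup.torsion (JZero N)) :
    phiTw h cW hcW (heckeTors r x) = tC r (phiTw h cW hcW x) := by
  apply (Additive.toMul (α := ↥(charGroup N))).injective
  apply Subtype.ext
  rw [coe_phiTw_heckeTors h cW hcW tStar tStd hFricke hHecke r x]
  exact (htC r (Additive.toMul (phiTw h cW hcW x))).symm

end Twist

/-! ### the untwisted case (`c_W = 1`), for reference -/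

section Untwisted

variable {ι : Kb →+* ℂ} (h : PhiDict N ι)

/-- the dictionary with values in the character group `X`, without twist -/
def phiX : AddCommGroup.torsion (JZero N) →+ Additive ↥(charGroup N) :=
  phiTw h (MulEquiv.refl _) (fun _ => Iff.rfl)

theorem coe_phiX (x : AddCommGroup.torsion (JZero N)) :
    ((Additive.toMul (phiX h x) : ↥(charGroup N)) : Gamma0 N →* ℂˣ) = phiFun h x := rfl

end Untwisted

end Fermat.Agent.S30.Final.FrickeTwist
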