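import Fermat.Agent.S30.Final.Chain
import Fermat.Agent.S30.Final.PhiMap

/-!
# PROJECT J, slice J-6-T: the comparison `e_p` of Tate modules (`(H3)` of `Final/Chain`)

* ABSTRACT PART (`J`, `X` arbitrary abelian groups): an additive map
  `Φ : AddCommGroup.torsion J →+ X` which is injective and onto the elements of finite order of `X`
  induces `tpEquiv Φ hinj hsurj : Tp p J ≃ₗ[ℤ_[p]] Tp p X` (`tpEquiv_apply`: componentwise `Φ`), and
  `tpEquiv_mapEnd`: if `Φ ∘ f = t ∘ Φ` on torsion then `tpEquiv ∘ Tp.mapEnd f = Tp.map t ∘ tpEquiv`.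
* `exists_equiv_of_tate` : composing with a comparison `tl : Tp p X ≃ₗ[ℤ_[p]] ℤ_[p] ⊗[ℤ] M` which
  intertwines `Tp.map (tC r)` with `(τ r).baseChange ℤ_[p]` gives the hypothesis `(H3)` of
  `Chain.s30_of_inputs` VERBATIM.
* CONCRETE PART: `phiC h : AddCommGroup.torsion (JZero N) →+ Additive ↥(Spec.charGroup N)` from
  `h : Spec.PhiDict N ι` (`PhiMap.phiFun` with the membership proof), `phiC_injective`,
  `phiC_surjective`; `twist` (post-composition with an automorphism of the character group, for the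
  Fricke twist) keeps both properties; `h3_of_phiDict`.
* `s30_of_phiDict` : the frozen statement S30 from `HasReductionAll`, `PhiDict`, the Hecke
  equivariance of `Φ`, the comparison `tl` and `(H4)`.
-/

set_option autoImplicit false
set_option linter.unusedSectionVars false
set_option linter.style.haveILetI false

noncomputable section

namespace Fermat.Agent.S30.Final.TateCompare

open TensorProduct ModularCurve
open Fermat.Agent.S30.Padic.TateModule Fermat.Agent.S30.Padic
open Fermat.Agent.S30.Final.Chain Fermat.Agent.S30.Final.PhiMap Fermat.Agent.S30.Spec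

/-! ### the abstract comparison -/

section Abstract

variable {p : ℕ} [hp : Fact p.Prime]
variable {J X : Type*} [AddCommGroup J] [AddCommGroup X]

/-- the restriction of an additive endomorphism to the torsion subgroup -/
def torsionMap (f : J →+ J) : AddCommGroup.torsion J →+ AddCommGroup.torsion J :=
  (f.comp (AddCommGroup.torsion J).subtype).codRestrict (AddCommGroup.torsion J)
    fun x => AddMonoidHom.isOfFinAddOrder f x.2

@[simp] theorem coe_torsionMap (f : J →+ J) (x : AddCommGroup.torsion J) :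
    (torsionMap f x : J) = f x := rfl

theorem isOfFinAddOrder_of_pow_nsmul {A : Type*} [AddCommGroup A] {z : A} {n : ℕ}
    (h : p ^ n • z = 0) : IsOfFinAddOrder z :=
  isOfFinAddOrder_iff_nsmul_eq_zero.mpr ⟨p ^ n, pow_pos hp.out.pos n, h⟩

/-- the Tate module only sees the torsion subgroup -/
theorem map_subtype_bijective :
    Function.Bijective (Tp.map (p := p) (AddCommGroup.torsion J).subtype) := by
  refine Tp.map_bijective _ (fun y _ hy => Subtype.ext hy) fun n z hz => ?_
  exact ⟨⟨z, isOfFinAddOrder_of_pow_nsmul hz⟩, Subtype.ext hz, rfl⟩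

variable (Φ : AddCommGroup.torsion J →+ X) (hinj : Function.Injective Φ)
  (hsurj : ∀ z : X, IsOfFinAddOrder z → ∃ x, Φ x = z)

include hinj hsurj in
theorem map_bijective_of_torsion : Function.Bijective (Tp.map (p := p) Φ) := by
  refine Tp.map_bijective _ (fun y _ hy => hinj (by rw [hy, map_zero])) fun n z hz => ?_
  obtain ⟨x, rfl⟩ := hsurj z (isOfFinAddOrder_of_pow_nsmul hz)
  refine ⟨x, hinj ?_, rfl⟩
  rw [map_nsmul, hz, map_zero]

/-- **the comparison of Tate modules** induced by a map which identifies the torsion of `J` with the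
torsion of `X` -/
def tpEquiv : Tp p J ≃ₗ[ℤ_[p]] Tp p X :=
  (LinearEquiv.ofBijective _ (map_subtype_bijective (p := p) (J := J))).symm.trans
    (LinearEquiv.ofBijective _ (map_bijective_of_torsion (p := p) Φ hinj hsurj))

theorem tpEquiv_map_subtype (y : Tp p (AddCommGroup.torsion J)) :
    tpEquiv Φ hinj hsurj (Tp.map (AddCommGroup.torsion J).subtype y) = Tp.map Φ y := by
  unfold tpEquiv
  rw [LinearEquiv.trans_apply]
  have h1 : (LinearEquiv.ofBijective _ (map_subtype_bijective (p := p) (J := J))).symm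
      (Tp.map (AddCommGroup.torsion J).subtype y) = y :=
    (LinearEquiv.symm_apply_eq _).mpr rfl
  rw [h1]
  rfl

theorem exists_eq_map_subtype (x : Tp p J) :
    ∃ y : Tp p (AddCommGroup.torsion J), Tp.map (AddCommGroup.torsion J).subtype y = x :=
  (map_subtype_bijective (p := p) (J := J)).2 x

/-- componentwise description -/
theorem tpEquiv_apply (x : Tp p J) (k : ℕ) :
    (tpEquiv Φ hinj hsurj x).1 k =
      Φ ⟨x.1 k, isOfFinAddOrder_of_pow_nsmul (Tp.pow_smul_apply x k)⟩ := by
  obtain ⟨y, rfl⟩ := exists_eq_map_subtype x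
  rw [tpEquiv_map_subtype]
  rfl

/-- **equivariance**: operators which correspond under `Φ` correspond under `tpEquiv`. -/
theorem tpEquiv_mapEnd (f : AddMonoid.End J) (t : X →+ X)
    (hft : ∀ x : AddCommGroup.torsion J, Φ (torsionMap f x) = t (Φ x)) (x : Tp p J) :
    tpEquiv Φ hinj hsurj (Tp.mapEnd f x) = Tp.map t (tpEquiv Φ hinj hsurj x) := by
  obtain ⟨y, rfl⟩ := exists_eq_map_subtype x
  have h1 : Tp.mapEnd f (Tp.map (AddCommGroup.torsion J).subtype y) =
      Tp.map (AddCommGroup.torsion J).subtype (Tp.map (torsionMap f) y) := by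
    ext k
    rfl
  rw [h1, tpEquiv_map_subtype, tpEquiv_map_subtype]
  ext k
  exact hft (y.1 k)

include hinj hsurj in
/-- composing with a comparison of `Tp p X` with a lattice: the shape `(H3)` -/
theorem exists_equiv_of_tate {ι' : Type*} (f : ι' → AddMonoid.End J) (tC : ι' → (X →+ X))
    (hft : ∀ (r : ι') (x : AddCommGroup.torsion J), Φ (torsionMap (f r) x) = tC r (Φ x))
    {M : Type*} [AddCommGroup M] (τ : ι' → Module.End ℤ M)
    (tl : Tp p X ≃ₗ[ℤ_[p]] ℤ_[p] ⊗[ℤ] M)
    (hnat : ∀ (r : ι') (x : Tp p X), tl (Tp.map (tC r) x) = (τ r).baseChange ℤ_[p] (tl x)) :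
    ∃ e : Tp p J ≃ₗ[ℤ_[p]] ℤ_[p] ⊗[ℤ] M,
      ∀ (r : ι') (x : Tp p J), e (Tp.mapEnd (f r) x) = (τ r).baseChange ℤ_[p] (e x) := by
  refine ⟨(tpEquiv Φ hinj hsurj).trans tl, fun r x => ?_⟩
  rw [LinearEquiv.trans_apply, LinearEquiv.trans_apply, tpEquiv_mapEnd Φ hinj hsurj (f r) (tC r)
    (hft r), hnat]

include hinj in
/-- post-composition with an automorphism of `X` keeps the two properties of `Φ` -/
theorem twist_injective (w : X ≃+ X) : Function.Injective ((w : X →+ X).comp Φ) :=
  w.injective.comp hinj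

include hsurj in
theorem twist_surjective (w : X ≃+ X) (z : X) (hz : IsOfFinAddOrder z) :
    ∃ x, ((w : X →+ X).comp Φ) x = z := by
  obtain ⟨x, hx⟩ := hsurj (w.symm z) (AddMonoidHom.isOfFinAddOrder (w.symm : X →+ X) hz)
  exact ⟨x, by rw [AddMonoidHom.comp_apply, hx]; exact w.apply_symm_apply z⟩

end Abstract

/-! ### the concrete map `Φ` on `J₀(N)` -/

section Concrete

local notation "Kb" => AlgebraicClosure ℚ

variable {N : ℕ} [NeZero N] {ι : Kb →+* ℂ} (h : PhiDict N ι)

/-- `Φ` with values in the group `X = charGroup N`, written additively -/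
def phiC : AddCommGroup.torsion (JZero N) →+ Additive ↥(charGroup N) where
  toFun x := Additive.ofMul ⟨phiFun h x, (phiFun_mem h x).1⟩
  map_zero' := by
    apply Additive.toMul.injective
    apply Subtype.ext
    exact phiFun_zero h
  map_add' x y := by
    apply Additive.toMul.injective
    apply Subtype.ext
    exact phiFun_add h x y

theorem coe_phiC (x : AddCommGroup.torsion (JZero N)) :
    ((Additive.toMul (phiC h x) : ↥(charGroup N)) : CongruenceSubgroup.Gamma0 N →* ℂˣ) =
      phiFun h x := rfl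

theorem phiC_injective : Function.Injective (phiC h) := by
  intro x y hxy
  apply phiHom_injective h
  have := congrArg (fun z : Additive ↥(charGroup N) =>
    ((Additive.toMul z : ↥(charGroup N)) : CongruenceSubgroup.Gamma0 N →* ℂˣ)) hxy
  exact congrArg Additive.ofMul this

theorem phiC_surjective (z : Additive ↥(charGroup N)) (hz : IsOfFinAddOrder z) :
    ∃ x, phiC h x = z := by
  have h1 : IsOfFinOrder (Additive.toMul z : ↥(charGroup N)) := isOfFinAddOrder_ofMul_iff.mp hz
  have h2 : IsOfFinOrder ((Additive.toMul z : ↥(charGroup N)) :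
      CongruenceSubgroup.Gamma0 N →* ℂˣ) := (charGroup N).subtype.isOfFinOrder h1
  obtain ⟨x, hx⟩ := exists_phiFun_eq h (Additive.toMul z).2 h2
  refine ⟨x, ?_⟩
  apply Additive.toMul.injective
  apply Subtype.ext
  exact hx

/-- **`(H3)` from the dictionary**: `Φ` Hecke-equivariant (for a family `tC r` of endomorphisms of
the character group, possibly after a twist `w`) and a comparison `tl` of the Tate module of the
character group with `ℤ_[p] ⊗[ℤ] M` give the hypothesis `(H3)` of `Chain.s30_of_inputs`. -/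
theorem h3_of_phiDict (p : ℕ) [Fact p.Prime] (w : Additive ↥(charGroup N) ≃+ Additive ↥(charGroup N))
    (tC : Nat.Primes → (Additive ↥(charGroup N) →+ Additive ↥(charGroup N)))
    (hHecke : ∀ (r : Nat.Primes) (x : AddCommGroup.torsion (JZero N)),
      w (phiC h (torsionMap (heckeEnd N r) x)) = tC r (w (phiC h x)))
    {M : Type*} [AddCommGroup M] (τ : Nat.Primes → Module.End ℤ M)
    (tl : Tp p (Additive ↥(charGroup N)) ≃ₗ[ℤ_[p]] ℤ_[p] ⊗[ℤ] M)
    (hnat : ∀ (r : Nat.Primes) (x : Tp p (Additive ↥(charGroup N))),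
      tl (Tp.map (tC r) x) = (τ r).baseChange ℤ_[p] (tl x)) :
    ∃ e : Tp p (JZero N) ≃ₗ[ℤ_[p]] ℤ_[p] ⊗[ℤ] M,
      ∀ (r : Nat.Primes) (x : Tp p (JZero N)),
        e (Tp.mapEnd (heckeEnd N r) x) = (τ r).baseChange ℤ_[p] (e x) :=
  exists_equiv_of_tate ((w : Additive ↥(charGroup N) →+ Additive ↥(charGroup N)).comp (phiC h))
    (twist_injective (phiC h) (phiC_injective h) w)
    (twist_surjective (phiC h) (phiC_surjective h) w) (heckeEnd N) tC hHecke τ tl hnat

/-- the Hecke equivariance of `Φ` in relation form (the output of J-4-Phi) gives the equivariance of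
`phiC` at the level of the underlying characters -/
theorem coe_phiC_hecke (r : Nat.Primes)
    (T : (CongruenceSubgroup.Gamma0 N →* ℂˣ) → (CongruenceSubgroup.Gamma0 N →* ℂˣ))
    (hT : ∀ (x : JZero N) (ψ : CongruenceSubgroup.Gamma0 N →* ℂˣ), IsPhiOf N ι x ψ →
      IsPhiOf N ι (heckeOperatorBar N r x) (T ψ))
    (x : AddCommGroup.torsion (JZero N)) :
    ((Additive.toMul (phiC h (torsionMap (heckeEnd N r) x)) : ↥(charGroup N)) :
      CongruenceSubgroup.Gamma0 N →* ℂˣ) = T (phiFun h x) :=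
  phiFun_eq h (x := torsionMap (heckeEnd N r) x) (hT _ _ (phiFun_spec h x))

/-- the same, bundled: if `tC r` is an endomorphism of the character group whose underlying map on
characters is `T`, then `phiC` intertwines `T_r` and `tC r` -/
theorem phiC_hecke (r : Nat.Primes)
    (tC : Additive ↥(charGroup N) →+ Additive ↥(charGroup N))
    (hT : ∀ (x : JZero N) (ψ : ↥(charGroup N)),
      IsPhiOf N ι x (ψ : CongruenceSubgroup.Gamma0 N →* ℂˣ) →
      IsPhiOf N ι (heckeOperatorBar N r x)
        ((Additive.toMul (tC (Additive.ofMul ψ)) : ↥(charGroup N)) :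
          CongruenceSubgroup.Gamma0 N →* ℂˣ))
    (x : AddCommGroup.torsion (JZero N)) :
    phiC h (torsionMap (heckeEnd N r) x) = tC (phiC h x) := by
  apply Additive.toMul.injective
  apply Subtype.ext
  exact phiFun_eq h (x := torsionMap (heckeEnd N r) x)
    (hT _ ⟨phiFun h x, (phiFun_mem h x).1⟩ (phiFun_spec h x))

end Concrete

/-! ### the chain, one step further -/

section Main

open Polynomial Fermat.Agent.S30.Arith Fermat.Agent.S30.Padic.EigenLattice

local notation "Kb" => AlgebraicClosure ℚ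

/-- **The S30 chain from the dictionary.** The frozen statement S30 from `(H1)` (project I), the
dictionary `PhiDict N ι` (J-1, J-2, J-3), the Hecke equivariance of `Φ` up to a twist `w` (J-4-Phi
and the Fricke twist), the comparison `tl` of the Tate module of the character group with
`ℤ_[p] ⊗[ℤ] M` (J-5a) and `(H4)` (J-4-E). -/
theorem s30_of_phiDict (p : ℕ) [Fact p.Prime] (N : ℕ) [NeZero N] (S : Finset ℕ)
    (hpS : p ∈ S) (hNS : ∀ q : ℕ, q.Prime → q ∣ N → q ∈ S)
    (𝒪' : Type) [CommRing 𝒪'] [IsDomain 𝒪'] [IsDiscreteValuationRing 𝒪']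
    [IsAdicComplete (IsLocalRing.maximalIdeal 𝒪') 𝒪'] [Finite (IsLocalRing.ResidueField 𝒪')]
    [CharZero 𝒪'] (hp𝒪' : (p : 𝒪') ∈ IsLocalRing.maximalIdeal 𝒪')
    (χ : CuspForm.heckeAlgebra N 2 (↑S : Set ℕ) →+* 𝒪')
    (H1 : Torsion.HasReductionAll N p)
    {ι : Kb →+* ℂ} (h : PhiDict N ι)
    (w : Additive ↥(charGroup N) ≃+ Additive ↥(charGroup N))
    (tC : Nat.Primes → (Additive ↥(charGroup N) →+ Additive ↥(charGroup N)))
    (hHecke : ∀ (r : Nat.Primes) (x : AddCommGroup.torsion (JZero N)),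
      w (phiC h (torsionMap (heckeEnd N r) x)) = tC r (w (phiC h x)))
    (M : Type) [AddCommGroup M] (τ : Nat.Primes → Module.End ℤ M)
    (tl : Tp p (Additive ↥(charGroup N)) ≃ₗ[ℤ_[p]] ℤ_[p] ⊗[ℤ] M)
    (hnat : ∀ (r : Nat.Primes) (x : Tp p (Additive ↥(charGroup N))),
      tl (Tp.map (tC r) x) = (τ r).baseChange ℤ_[p] (tl x))
    (H4 : ∃ (L : Type) (_ : Field L) (_ : Algebra (FractionRing 𝒪') L) (_ : Algebra 𝒪' L)
      (_ : IsScalarTower 𝒪' (FractionRing 𝒪') L) (_ : FiniteDimensional (FractionRing 𝒪') L)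
      (c : Nat.Primes → L), (∀ r, IsIntegral 𝒪' (c r)) ∧
      (∀ (ℓ : ℕ) (hℓ : ℓ.Prime) (hℓN : ¬ ℓ ∣ N) (hℓS : ℓ ∉ (↑S : Set ℕ)),
        c ⟨ℓ, hℓ⟩ = algebraMap 𝒪' L (χ (CuspForm.heckeAlgebra.T hℓ hℓN hℓS))) ∧
      Module.finrank L (eigenLattice (fun r => (τ r).baseChange L) c) = 2) :
    ∃ (𝒪'' : Type) (_ : CommRing 𝒪'') (_ : IsDomain 𝒪'') (_ : IsDiscreteValuationRing 𝒪'')
      (_ : IsAdicComplete (IsLocalRing.maximalIdeal 𝒪'') 𝒪'')
      (_ : Finite (IsLocalRing.ResidueField 𝒪'')) (_ : CharZero 𝒪'')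
      (_ : Algebra 𝒪' 𝒪'') (_ : Module.Finite 𝒪' 𝒪'') (_ : IsLocalHom (algebraMap 𝒪' 𝒪'')),
      Function.Injective (algebraMap 𝒪' 𝒪'') ∧
      ∃ ρ : GaloisRepAdic 𝒪'',
        (∀ (ℓ : ℕ) (hℓ : ℓ.Prime) (hℓN : ¬ ℓ ∣ N) (hℓS : ℓ ∉ (↑S : Set ℕ)),
          ∀ A : ValuationSubring (AlgebraicClosure ℚ), A.LiesOverPrime ℓ →
            ∀ σ : AlgebraicClosure ℚ ≃ₐ[ℚ] AlgebraicClosure ℚ, A.IsFrobeniusAt σ ℓ →
              LinearMap.charpoly (ρ.ρ σ) =
                X ^ 2 - C (algebraMap 𝒪' 𝒪'' (χ (CuspForm.heckeAlgebra.T hℓ hℓN hℓS))) * X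
                  + C ((ℓ : 𝒪''))) ∧
        (∀ q : ℕ, q.Prime → ¬ q ∣ N → q ≠ p → ρ.IsUnramifiedAt q) := by
  have hp : p.Prime := Fact.out
  obtain ⟨e, he⟩ := h3_of_phiDict h p w tC hHecke τ tl hnat
  exact s30_of_inputs p N S hpS hNS 𝒪' hp𝒪' χ H1 (finite_torsion h hp.ne_zero) M τ e he H4

end Main

end Fermat.Agent.S30.Final.TateCompare
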